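/-
Fermat/Agent/AV/Rigid81/Rigidity.lean  (helper81) -- CELL AV (S26/S27), brick "rigidity lemma".

The rigidity lemma (Mumford, Abelian Varieties, §4) over an algebraically closed field, extracted
from the proof of commutativity of abelian varieties in Mathlib
(`AlgebraicGeometry/Group/Abelian.lean`, where the argument is inlined for the commutator map).

Let `K` be algebraically closed, `X` proper over `K`, `W = X ×_K Y` integral, `Z` separated and
locally of finite type over `K`, and `f : W ⟶ Z` a `K`-morphism which contracts the fibre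
`X × {y₀}` over some closed point `y₀` of `Y` to a single closed point.  Then `f` factors through
the projection `W ⟶ Y`.
-/
import Mathlib

set_option autoImplicit false
set_option linter.unusedSectionVars false

universe u

open CategoryTheory CategoryTheory.Limits AlgebraicGeometry

noncomputable section

namespace Fermat.Agent.AV.Rigid81

variable {K : Type u} [Field K] [IsAlgClosed K]

/-- Two `K`-points of a scheme locally of finite type over an algebraically closed field `K`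
agree as soon as they agree on the underlying point. -/
theorem kpoint_ext {X : Scheme.{u}} (sX : X ⟶ Spec (.of K)) [LocallyOfFiniteType sX]
    {a b : Spec (.of K) ⟶ X} (ha : a ≫ sX = 𝟙 _) (hb : b ≫ sX = 𝟙 _)
    (h : a (IsLocalRing.closedPoint K) = b (IsLocalRing.closedPoint K)) : a = b :=
  ext_of_apply_closedPoint_eq sX ha hb h

/-- The image of a `K`-point is a closed point. -/
theorem isClosed_kpoint {X : Scheme.{u}} (sX : X ⟶ Spec (.of K)) [LocallyOfFiniteType sX]
    (a : Spec (.of K) ⟶ X) (ha : a ≫ sX = 𝟙 _) :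
    IsClosed ({a (IsLocalRing.closedPoint K)} : Set X) :=
  ((pointEquivClosedPoint sX) ⟨a, ha⟩).2

section Rigidity

variable {X Y Z W : Scheme.{u}} (sX : X ⟶ Spec (.of K)) (sY : Y ⟶ Spec (.of K))
  (sZ : Z ⟶ Spec (.of K)) {p1 : W ⟶ X} {p2 : W ⟶ Y} (hW : IsPullback p1 p2 sX sY)

include hW in
/-- The second projection of `X ×_K Y` is proper when `X` is. -/
theorem isProper_snd [IsProper sX] : IsProper p2 :=
  MorphismProperty.of_isPullback hW ‹IsProper sX›

include hW in
/-- The first projection of `X ×_K Y` is locally of finite type when `Y` is. -/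
theorem locallyOfFiniteType_fst [LocallyOfFiniteType sY] : LocallyOfFiniteType p1 :=
  MorphismProperty.of_isPullback hW.flip ‹LocallyOfFiniteType sY›

/-- The slice `X ⟶ X ×_K Y`, `x ↦ (x, y)` attached to a `K`-point `y` of `Y`. -/
def slice (y : Spec (.of K) ⟶ Y) (hy : y ≫ sY = 𝟙 _) : X ⟶ W :=
  hW.lift (𝟙 X) (sX ≫ y) (by rw [Category.id_comp, Category.assoc, hy, Category.comp_id])

@[reassoc (attr := simp)]
theorem slice_fst (y : Spec (.of K) ⟶ Y) (hy : y ≫ sY = 𝟙 _) :
    slice sX sY hW y hy ≫ p1 = 𝟙 X := hW.lift_fst _ _ _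

@[reassoc (attr := simp)]
theorem slice_snd (y : Spec (.of K) ⟶ Y) (hy : y ≫ sY = 𝟙 _) :
    slice sX sY hW y hy ≫ p2 = sX ≫ y := hW.lift_snd _ _ _

/-- The slice is the base change of the `K`-point `y` along the second projection. -/
theorem isPullback_slice (y : Spec (.of K) ⟶ Y) (hy : y ≫ sY = 𝟙 _) :
    IsPullback (slice sX sY hW y hy) sX p2 y := by
  refine IsPullback.of_right ?_ (slice_snd sX sY hW y hy) hW
  rw [slice_fst, hy]
  exact IsPullback.of_horiz_isIso ⟨by simp⟩

/-- The range of the slice at `y` is the fibre of the second projection over `y`. -/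
theorem range_slice (y : Spec (.of K) ⟶ Y) (hy : y ≫ sY = 𝟙 _) :
    Set.range (slice sX sY hW y hy) = p2 ⁻¹' {y (IsLocalRing.closedPoint K)} := by
  have h := Scheme.image_preimage_eq_of_isPullback (isPullback_slice sX sY hW y hy).flip Set.univ
  rw [Set.preimage_univ, Set.image_univ, Set.image_univ] at h
  rw [show Set.range (slice sX sY hW y hy) = Set.range (slice sX sY hW y hy).base from rfl, h]
  congr 1
  ext t
  simp only [Set.mem_range, Set.mem_singleton_iff]
  constructor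
  · rintro ⟨a, rfl⟩
    exact congrArg _ (Subsingleton.elim _ _)
  · rintro rfl
    exact ⟨_, rfl⟩

/-- **Rigidity lemma** (set-theoretic hypothesis).  Let `K` be algebraically closed, `X` proper
over `K`, `Y` locally of finite type over `K`, `W = X ×_K Y` integral, `Z` separated and locally of
finite type over `K`, and `f : W ⟶ Z` a `K`-morphism.  If `f` maps the fibre `X × {y₀}` over a
`K`-point `y₀` of `Y` to a single point `z₀`, then `f(x, y) = f(x₀, y)` for every `K`-point `x₀`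
of `X`, i.e. `f` factors through the second projection. -/
theorem rigidity [IsProper sX] [LocallyOfFiniteType sY] [IsSeparated sZ] [LocallyOfFiniteType sZ]
    [IsIntegral W] (f : W ⟶ Z) (hf : f ≫ sZ = p1 ≫ sX)
    (x₀ : Spec (.of K) ⟶ X) (hx₀ : x₀ ≫ sX = 𝟙 _)
    (y₀ : Spec (.of K) ⟶ Y) (hy₀ : y₀ ≫ sY = 𝟙 _) (z₀ : Z)
    (H : ∀ w : W, p2 w = y₀ (IsLocalRing.closedPoint K) → f w = z₀) :
    f = p2 ≫ hW.lift (sY ≫ x₀) (𝟙 Y)
      (by rw [Category.assoc, hx₀, Category.comp_id, Category.id_comp]) ≫ f := by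
  classical
  let pt : Spec (.of K) := IsLocalRing.closedPoint K
  -- basic instances
  have : IsProper p2 := isProper_snd sX sY hW
  have : LocallyOfFiniteType p1 := locallyOfFiniteType_fst sX sY hW
  have hsW : LocallyOfFiniteType (p1 ≫ sX) := inferInstance
  have : JacobsonSpace W := LocallyOfFiniteType.jacobsonSpace (Y := Spec _) (p1 ≫ sX)
  have hcond : f ≫ sZ = p2 ≫ sY := hf.trans hW.w
  -- the graph morphism `γ = (f, p2) : W ⟶ Z ×_K Y`
  let q : pullback sZ sY ⟶ Y := pullback.snd sZ sY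
  let γ : W ⟶ pullback sZ sY := pullback.lift f p2 hcond
  have hγq : γ ≫ q = p2 := pullback.lift_snd _ _ _
  have hγfst : γ ≫ pullback.fst sZ sY = f := pullback.lift_fst _ _ _
  have : IsProper (γ ≫ q) := by rw [hγq]; infer_instance
  have : IsProper γ := .of_comp γ q
  -- the base point `w₀ = (x₀, y₀)` of `W`
  let w₀ : Spec (.of K) ⟶ W := hW.lift x₀ y₀ (by rw [hx₀, hy₀])
  have hw₀1 : w₀ ≫ p1 = x₀ := hW.lift_fst _ _ _
  have hw₀2 : w₀ ≫ p2 = y₀ := hW.lift_snd _ _ _
  have hw₀s : w₀ ≫ p1 ≫ sX = 𝟙 _ := by rw [reassoc_of% hw₀1, hx₀]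
  have hy₀cl : IsClosed ({y₀ pt} : Set Y) := isClosed_kpoint sY y₀ hy₀
  let sT : pullback sZ sY ⟶ Spec (.of K) := q ≫ sY
  have : LocallyOfFiniteType sT := inferInstance
  have hγsT : γ ≫ sT = p1 ≫ sX := by
    simp only [sT, reassoc_of% hγq]; exact hW.w.symm
  have ht₀cl : IsClosed ({(w₀ ≫ γ) pt} : Set ↥(pullback sZ sY)) :=
    isClosed_kpoint sT (w₀ ≫ γ) (by rw [Category.assoc, hγsT, hw₀s])
  -- Step 1: `γ` contracts the fibre over `y₀` to the point `γ w₀`.
  have H1 : γ '' ((γ ≫ q) ⁻¹' {y₀ pt}) ⊆ {(w₀ ≫ γ) pt} := by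
    rw [Set.image_subset_iff, ← Set.sdiff_eq_empty, ← Set.not_nonempty_iff_eq_empty]
    intro Hne
    obtain ⟨c₀, ⟨hc₁, hc₂⟩, hc₃⟩ := nonempty_inter_closedPoints Hne <| by
      rw [Set.sdiff_eq_compl_inter]
      refine (IsOpen.isLocallyClosed ?_).inter (IsClosed.isLocallyClosed ?_)
      · exact (ht₀cl.preimage γ.continuous).isOpen_compl
      · exact hy₀cl.preimage (γ ≫ q).continuous
    let c : Spec (.of K) ⟶ W := pointOfClosedPoint (p1 ≫ sX) c₀ hc₃
    have hcs : c ≫ p1 ≫ sX = 𝟙 _ := pointOfClosedPoint_comp _ _ _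
    have hcpt : c pt = c₀ := pointOfClosedPoint_apply _ _ _ _
    have hc₁' : p2 c₀ = y₀ pt := by
      have := hc₁
      rw [hγq] at this
      exact this
    have hcp2 : c ≫ p2 = y₀ := by
      refine kpoint_ext sY ?_ hy₀ ?_
      · rw [Category.assoc, ← hW.w, hcs]
      · change p2 (c pt) = _
        rw [hcpt, hc₁']
    have hcf : c ≫ f = w₀ ≫ f := by
      refine kpoint_ext sZ ?_ ?_ ?_
      · rw [Category.assoc, hf, hcs]
      · rw [Category.assoc, hf, hw₀s]
      · change f (c pt) = f (w₀ pt)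
        rw [hcpt, H c₀ hc₁', H (w₀ pt)]
        change (w₀ ≫ p2) pt = _
        rw [hw₀2]
    have hcγ : c ≫ γ = w₀ ≫ γ := by
      apply pullback.hom_ext
      · rw [Category.assoc, Category.assoc, hγfst, hcf]
      · rw [Category.assoc, Category.assoc]
        change c ≫ γ ≫ q = w₀ ≫ γ ≫ q
        rw [hγq, hcp2, hw₀2]
    apply hc₂
    change γ c₀ = (w₀ ≫ γ) pt
    rw [← hcγ]
    change γ c₀ = γ (c pt)
    rw [hcpt]
  -- Step 2: Zariski's main theorem.
  obtain ⟨U, hy₀U, HU⟩ := exists_finite_imageι_comp_morphismRestrict_of_finite_image_preimage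
    γ q (y₀ pt) ((Set.finite_singleton _).subset H1)
  -- Step 3: over `U`, the image of `γ` has finite fibres over `Y`.
  have H3 (y : Y) (hyU : y ∈ U) : (q ⁻¹' {y} ∩ Set.range γ).Finite := by
    let g : γ.image ⟶ Y := γ.imageι ≫ q
    have hfin := ((g ∣_ U).finite_preimage_singleton ⟨y, hyU⟩).image ((g ⁻¹ᵁ U).ι ≫ γ.imageι)
    refine hfin.subset ?_
    rintro t ⟨ht, w, rfl⟩
    have hgw : g (γ.toImage w) = q (γ w) := by
      change (γ.toImage ≫ γ.imageι ≫ q) w = _
      rw [Scheme.Hom.toImage_imageι_assoc]; rfl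
    have hmem : γ.toImage w ∈ g ⁻¹ᵁ U := by
      change g (γ.toImage w) ∈ U
      rw [hgw, show q (γ w) = y from ht]; exact hyU
    refine ⟨⟨γ.toImage w, hmem⟩, ?_, ?_⟩
    · change (g ∣_ U) ⟨γ.toImage w, hmem⟩ = ⟨y, hyU⟩
      apply Subtype.ext
      exact (morphismRestrict_base_coe g U ⟨γ.toImage w, hmem⟩).trans (hgw.trans ht)
    · change (γ.toImage ≫ γ.imageι) w = γ w
      rw [Scheme.Hom.toImage_imageι]
  -- Step 4: compare `f` and `p2 ≫ (x₀, id) ≫ f` on closed points over `U`.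
  have hX : IrreducibleSpace X := by
    have hsurj : Function.Surjective p1 := fun x ↦
      ⟨slice sX sY hW y₀ hy₀ x, by
        change (slice sX sY hW y₀ hy₀ ≫ p1) x = x
        rw [slice_fst]; rfl⟩
    exact hsurj.irreducibleSpace p1.continuous
  have hfU : ∀ w : W, w ∈ p2 ⁻¹ᵁ U → IsClosed ({w} : Set W) →
      f w = (p2 ≫ hW.lift (sY ≫ x₀) (𝟙 Y)
        (by rw [Category.assoc, hx₀, Category.comp_id, Category.id_comp]) ≫ f) w := by
    intro w hwU hw
    -- the closed point `y = p2 w` of `Y` and the corresponding `K`-point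
    have hycl : IsClosed ({p2 w} : Set Y) := by
      simpa using p2.isClosedMap _ hw
    let y : Spec (.of K) ⟶ Y := pointOfClosedPoint sY (p2 w) hycl
    have hy : y ≫ sY = 𝟙 _ := pointOfClosedPoint_comp _ _ _
    have hypt : y pt = p2 w := pointOfClosedPoint_apply _ _ _ _
    -- the fibre over `y` is irreducible and `γ` has finite image on it, hence is constant there
    have hrange := range_slice sX sY hW y hy
    rw [show y (IsLocalRing.closedPoint K) = p2 w from hypt] at hrange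
    have hsub : (γ '' closure (p2 ⁻¹' {p2 w})).Subsingleton := by
      refine subsingleton_image_closure_of_finite_of_isPreirreducible
        (hycl.preimage p2.continuous).isLocallyClosed ?_ γ.continuous γ.isClosedMap
        ((H3 (p2 w) hwU).subset ?_)
      · rw [← hrange, ← Set.image_univ]
        exact ((IrreducibleSpace.isIrreducible_univ X).image _
          (slice sX sY hW y hy).continuous.continuousOn).isPreirreducible
      · rintro _ ⟨w', hw', rfl⟩
        refine ⟨?_, w', rfl⟩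
        change (γ ≫ q) w' = p2 w
        rw [hγq]; exact hw'
    -- the point `(x₀, y)` of the fibre
    let w₁ : W := (slice sX sY hW y hy) (x₀ pt)
    have hw₁ : p2 w₁ = p2 w := by
      change (slice sX sY hW y hy ≫ p2) (x₀ pt) = _
      rw [slice_snd]
      change y (sX (x₀ pt)) = _
      rw [← hypt]
      exact congrArg _ (Subsingleton.elim _ _)
    have hγeq : γ w = γ w₁ :=
      hsub ⟨w, subset_closure rfl, rfl⟩ ⟨w₁, subset_closure hw₁, rfl⟩
    have hfeq : f w = f w₁ := by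
      have := congrArg (pullback.fst sZ sY) hγeq
      change (γ ≫ pullback.fst sZ sY) w = (γ ≫ pullback.fst sZ sY) w₁ at this
      rwa [hγfst] at this
    rw [hfeq]
    have hpts : x₀ ≫ slice sX sY hW y hy = y ≫ hW.lift (sY ≫ x₀) (𝟙 Y)
        (by rw [Category.assoc, hx₀, Category.comp_id, Category.id_comp]) := by
      apply hW.hom_ext
      · rw [Category.assoc, slice_fst, Category.comp_id, Category.assoc, hW.lift_fst,
          reassoc_of% hy]
      · rw [Category.assoc, slice_snd, reassoc_of% hx₀, Category.assoc, hW.lift_snd,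
          Category.comp_id]
    change f ((x₀ ≫ slice sX sY hW y hy) pt) = f ((hW.lift (sY ≫ x₀) (𝟙 Y) _) (p2 w))
    rw [hpts, ← hypt]
    rfl
  have : LocallyOfFiniteType (f ≫ sZ) := hf ▸ hsW
  refine ext_of_apply_eq sZ (p2 ⁻¹ᵁ U : Set W) (p2 ⁻¹ᵁ U).isOpen.isLocallyClosed
    ((p2 ⁻¹ᵁ U).isOpen.dense ⟨w₀ pt, ?_⟩) hfU ?_
  · change (w₀ ≫ p2) pt ∈ U
    rw [hw₀2]; exact hy₀U
  · rw [Category.assoc, Category.assoc, hf, hW.lift_fst_assoc, Category.assoc, hx₀,
      Category.comp_id, hW.w]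

/-- The slice `Y ⟶ X ×_K Y`, `y ↦ (x, y)` attached to a `K`-point `x` of `X`. -/
def sliceR (x : Spec (.of K) ⟶ X) (hx : x ≫ sX = 𝟙 _) : Y ⟶ W :=
  hW.lift (sY ≫ x) (𝟙 Y) (by rw [Category.assoc, hx, Category.comp_id, Category.id_comp])

@[reassoc (attr := simp)]
theorem sliceR_fst (x : Spec (.of K) ⟶ X) (hx : x ≫ sX = 𝟙 _) :
    sliceR sX sY hW x hx ≫ p1 = sY ≫ x := hW.lift_fst _ _ _

@[reassoc (attr := simp)]
theorem sliceR_snd (x : Spec (.of K) ⟶ X) (hx : x ≫ sX = 𝟙 _) :
    sliceR sX sY hW x hx ≫ p2 = 𝟙 Y := hW.lift_snd _ _ _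

/-- **Rigidity lemma** (scheme-theoretic hypothesis): if `f` is constant on the slice
`X × {y₀}`, then `f(x, y) = f(x₀, y)`. -/
theorem rigidity' [IsProper sX] [LocallyOfFiniteType sY] [IsSeparated sZ] [LocallyOfFiniteType sZ]
    [IsIntegral W] (f : W ⟶ Z) (hf : f ≫ sZ = p1 ≫ sX)
    (x₀ : Spec (.of K) ⟶ X) (hx₀ : x₀ ≫ sX = 𝟙 _)
    (y₀ : Spec (.of K) ⟶ Y) (hy₀ : y₀ ≫ sY = 𝟙 _) (z₀ : Spec (.of K) ⟶ Z)
    (H : slice sX sY hW y₀ hy₀ ≫ f = sX ≫ z₀) :
    f = p2 ≫ sliceR sX sY hW x₀ hx₀ ≫ f := by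
  refine rigidity sX sY sZ hW f hf x₀ hx₀ y₀ hy₀ (z₀ (IsLocalRing.closedPoint K)) ?_
  intro w hw
  have hmem : w ∈ Set.range (slice sX sY hW y₀ hy₀) := by
    rw [range_slice]; exact hw
  obtain ⟨x, rfl⟩ := hmem
  change (slice sX sY hW y₀ hy₀ ≫ f) x = _
  rw [H]
  change z₀ (sX x) = _
  exact congrArg _ (Subsingleton.elim _ _)

/-- **Rigidity, two-axes form**: a `K`-morphism `f : X ×_K Y ⟶ Z` (with `X` proper and the
product integral) which is constant with the same value `z₀` on the two axes `X × {y₀}` and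
`{x₀} × Y` is constant. -/
theorem eq_const_of_axes [IsProper sX] [LocallyOfFiniteType sY] [IsSeparated sZ]
    [LocallyOfFiniteType sZ] [IsIntegral W] (f : W ⟶ Z) (hf : f ≫ sZ = p1 ≫ sX)
    (x₀ : Spec (.of K) ⟶ X) (hx₀ : x₀ ≫ sX = 𝟙 _)
    (y₀ : Spec (.of K) ⟶ Y) (hy₀ : y₀ ≫ sY = 𝟙 _) (z₀ : Spec (.of K) ⟶ Z)
    (H1 : slice sX sY hW y₀ hy₀ ≫ f = sX ≫ z₀)
    (H2 : sliceR sX sY hW x₀ hx₀ ≫ f = sY ≫ z₀) :
    f = (p1 ≫ sX) ≫ z₀ := by
  rw [rigidity' sX sY sZ hW f hf x₀ hx₀ y₀ hy₀ z₀ H1, H2, hW.w, Category.assoc]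

end Rigidity

end Fermat.Agent.AV.Rigid81
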